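/-
S43lib / B0 / Iface  (helper8)  — Project H, block B0 (MAZUR'S PRINCIPLE): THE INTERFACE.

For a Frey package `P`, a conductor level `N` prime to `p = P.p`, a prime `r ∣ N` (`r ≥ 5` here; the primes
`2, 3` go through the auxiliary-level transfer, `MazurSmallStmt`), `ρ̄ = E[p]` irreducible, modular of level
`N` and unramified at `r`:   `r ≢ 1 (p)`  or  a decomposition group over `r` acts through a non-scalar
⟹ `ρ̄` is modular of level `N / r`.     (`S43lib.MazurBlock` of `S43lib/Iface.lean`.)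

Notation: `J = JZero N`, `A` a place of `ℚ̄` over `r`, `I = IA A`.  The special fibre of the nodal model at
`A` is `C₁ ∪ C₂`, `C_i ≅ X₀(N/r)_k`, glued at the supersingular points.

Blocks:
* `Q1GenStmt`     the Frey module inside `J₀(N)[p]`, Hecke eigen (S44lib's Q1, which never used `p ∣ N`);
* `S44lib.NonEisStmt` (landed);
* `TamePackage`   the geometric package at `A ∣ r`, `r ≠ p` (tame analogue of `S44lib.PsiPackage`):
     - `Ψ : J[p] → Ω` (reduction Kummer classes on the two components), `res : Ω → R` (node orders),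
       additive, Hecke equivariant, `ker Ψ = K` = THE TORIC PART      (helper6, `B0/Toric/{Part,Ker}`);
     - `mono` : `x ∈ J[p]` inertia-fixed ⟹ `res (Ψ x) ∈ Eis`        (helper6, `B0/Toric/TameEis`);
     - `eis`  : `T_ℓ = ℓ + 1` on `Eis`                               (S44lib/Q4, helper2);
     - `frobK`: a Frobenius element at `A` acts on the toric part as `- r · w`, `w` an involution of `J`
       commuting with `G_ℚ` (Atkin–Lehner `w_r`)                     (helper6, `B0/Toric/Swap` + instance);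
     - `old`  : a non-zero residue-free Hecke eigenvector of `Ω` (= a non-zero Hecke eigenclass of
       `Pic⁰(X₀(N/r)_k)[p]`) comes from a normalized eigenform of level `N / r`
                                                                     (helper8, `B0/Lift/**`);
* `DecompFrobStmt` on an unramified finite module the decomposition group acts through powers of a Frobenius;
* `DetFrobStmt`    a Frobenius at `r ≠ p` acting on `E[p]` through the scalar `c` has `c² ≡ r (p)`;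
* `BadPrimeStmt`   a prime dividing `abc` divides the discriminant of every integral model;
* `mazur_of_stmts` : the assembly (proved here).
-/
import Mathlib
import Fermat.Agent.S43lib.Iface
import Fermat.Agent.S44lib.Iface
import Fermat.Agent.S56lib.TWSel.Places

set_option autoImplicit false
set_option linter.unusedSectionVars false

noncomputable section

namespace Fermat.Agent.S43lib.B0

open ModularCurve Fermat.Agent.S19lib Fermat.Agent.S33lib Fermat.Agent.S44lib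
open WeierstrassCurve WeierstrassCurve.Affine WeierstrassCurve.Affine.Point

local notation "Qb" => AlgebraicClosure ℚ
local notation "GQ" => (AlgebraicClosure ℚ ≃ₐ[ℚ] AlgebraicClosure ℚ)
local notation "Zbar" => integralClosure ℤ ℂ

/-! ### Q1 at an arbitrary level -/

/-- **Q1 at any level**: the Frey module inside `J₀(N)[p]`, Hecke-eigen with the eigenvalues of the
integral model (the statement of `S44lib.Q1Stmt` without the unused hypotheses `IsConductorLevel`, `p ∣ N`). -/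
def Q1GenStmt : Prop :=
  ∀ (P : FreyPackage) (N : ℕ) [NeZero N],
    GaloisRepIsIrreducible (K := Qb) ℚ P.freyCurve P.p →
    ∀ (f : CuspForm (CongruenceSubgroup.Gamma0 N) 2) (W : WeierstrassCurve ℤ) (𝔪 : Ideal Zbar),
      f.IsNormalizedEigenform → W.IsIntegralModelOf P.freyCurve → 𝔪.IsMaximal →
      (P.p : Zbar) ∈ 𝔪 → CongruentTo f 𝔪 W.apOfModel (IsTestPrime W N P.p) →
      ∃ (V : AddSubgroup (JZero N)) (e : FreyTors P ≃+ V),
        V ≤ tors N (P.p : ℤ) ∧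
        (∀ (σ : GQ) (x : FreyTors P), ((e (σ • x) : V) : JZero N) = σ • ((e x : V) : JZero N)) ∧
        (∀ (ℓ : ℕ) (hℓ : ℓ.Prime), IsTestPrime W N P.p ℓ → ∀ x ∈ V,
          heckeOperatorBar N ⟨ℓ, hℓ⟩ x = (W.apOfModel ℓ) • x)

/-! ### the geometric package at `r ∥ N`, `r ≠ p` -/

/-- **the tame geometric package** of level `N` at a place `A` over `r` (`r ∥ N`, torsion exponent `p ≠ r`).

Concrete model: `D` the modular nodal datum of `LSb/Unit` at `A` (`F₁ = F₂ = FRes A (N/r)`),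
`Ω`, `R`, `Ψ`, `res`, `TΩ`, `TR`, `Eis` as in `S44lib.PsiPackage` (with `p` prime to the residue
characteristic), `K = toricPart D p`, `w` the Atkin–Lehner involution `w_r` of `J₀(N)`. -/
structure TamePackage (N : ℕ) [NeZero N] (r p : ℕ) (A : ValuationSubring Qb) where
  /-- target of `Ψ`: a pair of Kummer classes on the two components -/
  Ω : Type
  [instΩ : AddCommGroup Ω]
  /-- node orders -/
  R : Type
  [instR : AddCommGroup R]
  /-- `Ψ` (only its values on `J[p]` matter) -/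
  Ψ : JZero N → Ω
  /-- the node order map -/
  res : Ω →+ R
  /-- Hecke operators on `Ω` -/
  TΩ : Nat.Primes → (Ω →+ Ω)
  /-- Hecke operators on the node orders -/
  TR : Nat.Primes → (R →+ R)
  /-- the Eisenstein subgroup -/
  Eis : AddSubgroup R
  /-- the toric part of `J[p]` -/
  K : AddSubgroup (JZero N)
  /-- the Atkin–Lehner involution `w_r` -/
  w : JZero N →+ JZero N
  Ψ_add : ∀ x ∈ tors N (p : ℤ), ∀ y ∈ tors N (p : ℤ), Ψ (x + y) = Ψ x + Ψ y
  Ψ_hecke : ∀ ℓ : Nat.Primes, ¬ (ℓ : ℕ) ∣ N → ∀ x ∈ tors N (p : ℤ),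
    Ψ (heckeOperatorBar N ℓ x) = TΩ ℓ (Ψ x)
  res_hecke : ∀ ℓ : Nat.Primes, ¬ (ℓ : ℕ) ∣ N → ∀ x ∈ tors N (p : ℤ),
    res (TΩ ℓ (Ψ x)) = TR ℓ (res (Ψ x))
  K_le : K ≤ tors N (p : ℤ)
  mem_K : ∀ x ∈ tors N (p : ℤ), x ∈ K ↔ Ψ x = 0
  p_smul_R : ∀ ρ : R, (p : ℤ) • ρ = 0
  /-- the tame `(M′)`: the node orders of an inertia-fixed class are Eisenstein -/
  mono : ∀ x ∈ tors N (p : ℤ), (∀ σ ∈ IA A, σ • x = x) → res (Ψ x) ∈ Eis
  eis : ∀ ℓ : Nat.Primes, ¬ (ℓ : ℕ) ∣ N → (ℓ : ℕ) ≠ p → ∀ ρ ∈ Eis, TR ℓ ρ = ((ℓ : ℕ) + 1 : ℤ) • ρ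
  /-- the abelian part is old -/
  old : ∀ x ∈ tors N (p : ℤ), Ψ x ≠ 0 → res (Ψ x) = 0 → ∀ (a : ℕ → ℤ) (S : ℕ → Prop),
    (∀ ℓ, S ℓ → ℓ.Prime ∧ ¬ ℓ ∣ N ∧ ℓ ≠ p) →
    (∃ ℓ, S ℓ ∧ ¬ (p : ℤ) ∣ a ℓ - (ℓ + 1)) →
    (∀ (ℓ : ℕ) (hℓ : ℓ.Prime), S ℓ → TΩ ⟨ℓ, hℓ⟩ (Ψ x) = (a ℓ) • Ψ x) →
    ∃ (g : CuspForm (CongruenceSubgroup.Gamma0 (N / r)) 2) (𝔪 : Ideal Zbar),
      g.IsNormalizedEigenform ∧ 𝔪.IsMaximal ∧ (p : Zbar) ∈ 𝔪 ∧ CongruentTo g 𝔪 a S
  w_galois : ∀ (σ : GQ) (x : JZero N), w (σ • x) = σ • w x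
  w_invol : ∀ x : JZero N, w (w x) = x
  /-- Frobenius on the toric part -/
  frobK : ∀ φ : GQ, A.IsFrobeniusAt φ r → ∀ x ∈ K, φ • x = -((r : ℤ) • w x)

attribute [instance] TamePackage.instΩ TamePackage.instR

/-- **Geometry of B0**: the tame package exists at every `r ≥ 5`, `r ∥ N`, `p ≥ 5` prime, `p ≠ r`. -/
def TameGeomStmt : Prop :=
  ∀ (N : ℕ) [NeZero N] (r p : ℕ), r.Prime → 5 ≤ r → r ∣ N → ¬ r ^ 2 ∣ N → p.Prime → 5 ≤ p → p ≠ r →
    ∀ A : ValuationSubring Qb, A.LiesOverPrime r → Nonempty (TamePackage N r p A)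

/-! ### the arithmetic side blocks -/

/-- on a module on which the inertia group at `A` acts trivially, every element of the decomposition group
acts as a power of a Frobenius element (the action has finite level). -/
def DecompFrobStmt : Prop :=
  ∀ (P : FreyPackage) (r : ℕ) (A : ValuationSubring Qb), r.Prime → A.LiesOverPrime r →
    (∀ σ ∈ IA A, ∀ x : FreyTors P, σ • x = x) →
    ∀ σ ∈ A.decompositionSubgroup ℚ, ∃ (φ : GQ) (j : ℕ), A.IsFrobeniusAt φ r ∧
      ∀ x : FreyTors P, σ • x = φ ^ j • x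

/-- the determinant of `ρ̄` is the cyclotomic character: a Frobenius element at `r ≠ p` acting on `E[p]`
through the scalar `c` has `c² ≡ r (mod p)`. -/
def DetFrobStmt : Prop :=
  ∀ (P : FreyPackage) (r : ℕ) (A : ValuationSubring Qb), r.Prime → r ≠ P.p → A.LiesOverPrime r →
    ∀ φ : GQ, A.IsFrobeniusAt φ r → ∀ c : ℤ, (∀ x : FreyTors P, φ • x = c • x) →
      (P.p : ℤ) ∣ c ^ 2 - r

/-- a prime dividing `abc` divides the discriminant of every integral model of the Frey curve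
(the `j`-invariant is not integral there). -/
def BadPrimeStmt : Prop :=
  ∀ (P : FreyPackage) (W : WeierstrassCurve ℤ) (r : ℕ), r.Prime → W.IsIntegralModelOf P.freyCurve →
    (r : ℤ) ∣ P.a * P.b * P.c → (r : ℤ) ∣ W.Δ

/-- **Mazur's principle at the primes `r ≥ 5`.** -/
def MazurLargeStmt : Prop :=
  ∀ (P : FreyPackage) (N r : ℕ), P.IsConductorLevel N → ¬ P.p ∣ N → r.Prime → 5 ≤ r → r ∣ N →
    GaloisRepIsIrreducible (K := Qb) ℚ P.freyCurve P.p →
    P.ModularRepOfLevel N → P.GaloisRepUnramifiedAt r →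
    (¬ r ≡ 1 [MOD P.p] ∨ ¬ DecompScalarAt P r) → P.ModularRepOfLevel (N / r)

/-- **Mazur's principle at the primes `r = 2, 3`** (auxiliary-level transfer; `r ≢ 1 (p)` is automatic). -/
def MazurSmallStmt : Prop :=
  ∀ (P : FreyPackage) (N r : ℕ), P.IsConductorLevel N → ¬ P.p ∣ N → r.Prime → r < 5 → r ∣ N →
    GaloisRepIsIrreducible (K := Qb) ℚ P.freyCurve P.p →
    P.ModularRepOfLevel N → P.GaloisRepUnramifiedAt r → P.ModularRepOfLevel (N / r)

/-- **Mazur's principle at `r = 3`** (auxiliary-level transfer to `Γ₀(4N)` resp. `Γ₀(2N)`, where the nodal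
model of `LSb`/`LSc` exists: `GoodPair`). -/
def MazurThreeStmt : Prop :=
  ∀ (P : FreyPackage) (N : ℕ), P.IsConductorLevel N → ¬ P.p ∣ N → 3 ∣ N →
    GaloisRepIsIrreducible (K := Qb) ℚ P.freyCurve P.p →
    P.ModularRepOfLevel N → P.GaloisRepUnramifiedAt 3 → P.ModularRepOfLevel (N / 3)

/-- the Frey representation is ramified at `2` (helper4's `BigImg.frey_not_unramifiedAt_two`). -/
def Ram2Stmt : Prop := ∀ P : FreyPackage, ¬ P.GaloisRepUnramifiedAt 2

/-- the small primes: `r = 2` is vacuous, `r = 3` is `MazurThreeStmt`. -/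
theorem mazurSmall_of_three (h2 : Ram2Stmt) (h3 : MazurThreeStmt) : MazurSmallStmt := by
  intro P N r hcond hpN hr hr5 hrN hirr hmod hunr
  have h2r : 2 ≤ r := hr.two_le
  interval_cases r
  · exact absurd hunr (h2 P)
  · exact h3 P N hcond hpN hrN hirr hmod hunr
  · exact absurd hr (by decide)

/-- `MazurBlock` from its two halves. -/
theorem mazurBlock_of_large_small (hL : MazurLargeStmt) (hS : MazurSmallStmt) : MazurBlock := by
  intro P N r hcond hpN hr hrN hirr hmod hunr hdisj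
  by_cases h5 : 5 ≤ r
  · exact hL P N r hcond hpN hr h5 hrN hirr hmod hunr hdisj
  · exact hS P N r hcond hpN hr (not_le.mp h5) hrN hirr hmod hunr

/-! ### the assembly -/

section Assembly

variable {N : ℕ} [NeZero N] {r p : ℕ} {A : ValuationSubring Qb}

/-- `Ψ` commutes with integer multiples on `J[p]` -/
theorem TamePackage.Ψ_zsmul (G : TamePackage N r p A) (m : ℤ) (y : JZero N)
    (hy : y ∈ tors N (p : ℤ)) : G.Ψ (m • y) = m • G.Ψ y := by
  have h0 : G.Ψ 0 = 0 := by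
    have := G.Ψ_add 0 (zero_mem _) 0 (zero_mem _)
    rw [add_zero] at this
    exact left_eq_add.mp this
  have hn : ∀ (n : ℕ), ∀ y ∈ tors N (p : ℤ), G.Ψ (n • y) = n • G.Ψ y := by
    intro n y hy
    induction n with
    | zero => simp [h0]
    | succ n ih =>
      rw [succ_nsmul, succ_nsmul, G.Ψ_add _ (nsmul_mem hy n) _ hy, ih]
  have hneg : ∀ y ∈ tors N (p : ℤ), G.Ψ (-y) = - G.Ψ y := by
    intro y hy
    have := G.Ψ_add y hy (-y) (neg_mem hy)
    rw [add_neg_cancel, h0] at this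
    exact (neg_eq_of_add_eq_zero_right this.symm).symm
  obtain ⟨n, rfl | rfl⟩ := m.eq_nat_or_neg
  · rw [natCast_zsmul, natCast_zsmul, hn n y hy]
  · rw [neg_smul, neg_smul, natCast_zsmul, natCast_zsmul, hneg _ (nsmul_mem hy n), hn n y hy]

/-- an inertia-fixed Hecke eigenclass of `J[p]` with a non-Eisenstein eigenvalue has no node orders. -/
theorem TamePackage.res_eq_zero (G : TamePackage N r p A) (hp : p.Prime) {x : JZero N}
    (hxT : x ∈ tors N (p : ℤ)) (hfix : ∀ σ ∈ IA A, σ • x = x)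
    (a : ℕ → ℤ) (S : ℕ → Prop) (hS : ∀ ℓ, S ℓ → ℓ.Prime ∧ ¬ ℓ ∣ N ∧ ℓ ≠ p)
    (heig : ∀ (ℓ : ℕ) (hℓ : ℓ.Prime), S ℓ → heckeOperatorBar N ⟨ℓ, hℓ⟩ x = (a ℓ) • x)
    (hnonE : ∃ ℓ, S ℓ ∧ ¬ (p : ℤ) ∣ a ℓ - (ℓ + 1)) :
    G.res (G.Ψ x) = 0 ∧
      ∀ (ℓ : ℕ) (hℓ : ℓ.Prime), S ℓ → G.TΩ ⟨ℓ, hℓ⟩ (G.Ψ x) = (a ℓ) • G.Ψ x := by
  have heigΩ : ∀ (ℓ : ℕ) (hℓ : ℓ.Prime), S ℓ → G.TΩ ⟨ℓ, hℓ⟩ (G.Ψ x) = (a ℓ) • G.Ψ x := by
    intro ℓ hℓ hSℓ
    rw [← G.Ψ_hecke ⟨ℓ, hℓ⟩ (hS ℓ hSℓ).2.1 x hxT, heig ℓ hℓ hSℓ, G.Ψ_zsmul _ x hxT]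
  refine ⟨?_, heigΩ⟩
  have hres : G.res (G.Ψ x) ∈ G.Eis := G.mono x hxT hfix
  obtain ⟨ℓ, hSℓ, hℓne⟩ := hnonE
  obtain ⟨hℓ, hℓN, hℓp⟩ := hS ℓ hSℓ
  have h1 : G.TR ⟨ℓ, hℓ⟩ (G.res (G.Ψ x)) = ((ℓ : ℕ) + 1 : ℤ) • G.res (G.Ψ x) :=
    G.eis ⟨ℓ, hℓ⟩ hℓN hℓp _ hres
  have h2 : G.TR ⟨ℓ, hℓ⟩ (G.res (G.Ψ x)) = (a ℓ) • G.res (G.Ψ x) := by
    rw [← G.res_hecke ⟨ℓ, hℓ⟩ hℓN x hxT, heigΩ ℓ hℓ hSℓ, map_zsmul]
  have h3 : (a ℓ - (ℓ + 1)) • G.res (G.Ψ x) = 0 := by
    rw [sub_smul, ← h2, h1]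
    exact sub_self _
  have hcop : IsCoprime (a ℓ - (ℓ + 1)) (p : ℤ) :=
    ((Nat.prime_iff_prime_int.mp hp).coprime_iff_not_dvd.2 hℓne).symm
  obtain ⟨u, v, huv⟩ := hcop
  have : G.res (G.Ψ x) = (u * (a ℓ - (ℓ + 1)) + v * (p : ℤ)) • G.res (G.Ψ x) := by
    rw [huv, one_smul]
  rw [this, add_smul, mul_smul, mul_smul, h3, G.p_smul_R, smul_zero, smul_zero, add_zero]

end Assembly

/-- an additive endomorphism of `E[p]` commuting with `G_ℚ` and of square one is `± 1` if `E[p]` is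
irreducible. -/
theorem eq_or_eq_neg_of_involution (P : FreyPackage)
    (hirr : GaloisRepIsIrreducible (K := Qb) ℚ P.freyCurve P.p)
    (u : FreyTors P →+ FreyTors P) (hu : ∀ (σ : GQ) (x : FreyTors P), u (σ • x) = σ • u x)
    (huu : ∀ x, u (u x) = x) : (∀ x, u x = x) ∨ (∀ x, u x = -x) := by
  have : Fact P.p.Prime := ⟨P.pp⟩
  -- the fixed submodule
  let Np : Submodule (ZMod P.p) (FreyTors P) :=
    LinearMap.ker ((u - AddMonoidHom.id (FreyTors P) : FreyTors P →+ FreyTors P).toZModLinearMap P.p)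
  have hmem : ∀ x : FreyTors P, x ∈ Np ↔ u x = x := by
    intro x
    show (u - AddMonoidHom.id (FreyTors P) : FreyTors P →+ FreyTors P) x = 0 ↔ _
    rw [AddMonoidHom.sub_apply, AddMonoidHom.id_apply, sub_eq_zero]
  have hst : IsGaloisStable (K := Qb) ℚ Np := by
    intro σ x hx
    rw [hmem] at hx ⊢
    rw [hu, hx]
  rcases hirr.2 Np hst with h | h
  · right
    intro x
    have h1 : x + u x ∈ Np := by
      rw [hmem, map_add, huu, add_comm]
    rw [h, Submodule.mem_bot] at h1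
    exact (eq_neg_of_add_eq_zero_right h1)
  · left
    intro x
    exact (hmem x).1 (h ▸ Submodule.mem_top)

/-- **Mazur's principle at `r ≥ 5` from the block statements.** -/
theorem mazur_of_stmts (h1 : Q1GenStmt) (hE : NonEisStmt) (hG : TameGeomStmt)
    (hD : DecompFrobStmt) (hdet : DetFrobStmt) (hbad : BadPrimeStmt) : MazurLargeStmt := by
  intro P N r hcond hpN hr h5 hrN hirr hmod hunr hdisj
  have : NeZero N := ⟨hcond.pos.ne'⟩
  have hp : P.p.Prime := P.pp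
  have hrp : r ≠ P.p := fun h => hpN (h ▸ hrN)
  have hr2N : ¬ r ^ 2 ∣ N := hcond.sq_not_dvd hr
  obtain ⟨f, W, 𝔪, hf, hW, h𝔪, hp𝔪, hcong⟩ := hmod
  have hcong' : CongruentTo f 𝔪 W.apOfModel (IsTestPrime W N P.p) :=
    fun ℓ hℓ => hcong ℓ hℓ.1 hℓ.2.1 hℓ.2.2.1 hℓ.2.2.2
  obtain ⟨V, e, hVt, he, hVeig⟩ := h1 P N hirr f W 𝔪 hf hW h𝔪 hp𝔪 hcong'
  -- the place: one at which a decomposition group acts through a non-scalar, if there is one
  obtain ⟨A, hA, hAdisj⟩ : ∃ A : ValuationSubring Qb, A.LiesOverPrime r ∧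
      (¬ r ≡ 1 [MOD P.p] ∨ ∃ σ ∈ A.decompositionSubgroup ℚ, ∀ c : ℤ,
        ¬ ∀ x : FreyTors P, σ • x = c • x) := by
    rcases hdisj with h | h
    · obtain ⟨A, hA⟩ := Fermat.Agent.S13lib.exists_liesOverPrime hr
      exact ⟨A, hA, Or.inl h⟩
    · unfold DecompScalarAt at h
      push Not at h
      obtain ⟨A, hA, σ, hσ, hns⟩ := h
      exact ⟨A, hA, Or.inr ⟨σ, hσ, fun c hc => by
        obtain ⟨x, hx⟩ := hns c
        exact hx (hc x)⟩⟩
  obtain ⟨G⟩ := hG N r P.p hr h5 hrN hr2N hp P.hp5 hrp.symm A hA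
  -- transport of the Galois structure to `V`
  have hsmulV : ∀ (σ : GQ) (x : JZero N), x ∈ V → σ • x ∈ V := by
    intro σ x hx
    have := he σ (e.symm ⟨x, hx⟩)
    rw [AddEquiv.apply_symm_apply] at this
    rw [← this]
    exact (e _).2
  have hIfix : ∀ σ ∈ IA A, ∀ x ∈ V, σ • x = x := by
    intro σ hσ x hx
    obtain ⟨y, rfl⟩ : ∃ y, ((e y : V) : JZero N) = x := ⟨e.symm ⟨x, hx⟩, by simp⟩
    have hy : σ • y = y := hunr A hA σ hσ y
    rw [← he σ y, hy]
  have hnonE := hE P N W hcond.pos hW hirr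
  have hS : ∀ ℓ, IsTestPrime W N P.p ℓ → ℓ.Prime ∧ ¬ ℓ ∣ N ∧ ℓ ≠ P.p :=
    fun ℓ hℓ => ⟨hℓ.1, hℓ.2.2.1, hℓ.2.2.2⟩
  have hres : ∀ x ∈ V, G.res (G.Ψ x) = 0 ∧ ∀ (ℓ : ℕ) (hℓ : ℓ.Prime), IsTestPrime W N P.p ℓ →
      G.TΩ ⟨ℓ, hℓ⟩ (G.Ψ x) = (W.apOfModel ℓ) • G.Ψ x := fun x hx =>
    G.res_eq_zero hp (hVt hx) (fun σ hσ => hIfix σ hσ x hx) W.apOfModel (IsTestPrime W N P.p) hS
      (fun ℓ hℓ hSℓ => hVeig ℓ hℓ hSℓ x hx) hnonE
  by_cases hΨ : ∃ x ∈ V, G.Ψ x ≠ 0
  · -- the abelian part: an old form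
    obtain ⟨x, hxV, hx0⟩ := hΨ
    obtain ⟨g, 𝔪', hg, h𝔪', hp𝔪', hcongg⟩ := G.old x (hVt hxV) hx0 (hres x hxV).1 W.apOfModel
      (IsTestPrime W N P.p) hS hnonE (hres x hxV).2
    refine ⟨g, W, 𝔪', hg, hW, h𝔪', hp𝔪', ?_⟩
    intro ℓ hℓ hgood hℓM hℓp
    refine hcongg ℓ ⟨hℓ, hgood, fun hℓN => ?_, hℓp⟩
    -- `ℓ ∣ N`, `ℓ ∤ N / r` ⟹ `ℓ = r`, a bad prime of `W`
    have hN : N = r * (N / r) := (Nat.mul_div_cancel' hrN).symm
    rw [hN] at hℓN
    rcases (Nat.Prime.dvd_mul hℓ).1 hℓN with h | h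
    · have hℓr : ℓ = r := (Nat.prime_dvd_prime_iff_eq hℓ hr).1 h
      subst hℓr
      exact hgood (hbad P W ℓ hℓ hW (hcond.support ℓ hℓ hrN))
    · exact hℓM h
  · -- the toric part: every Frobenius element at `A` acts through a scalar `c` with `c² ≡ r² (p)`
    exfalso
    push Not at hΨ
    have hVK : ∀ x ∈ V, x ∈ G.K := fun x hx => (G.mem_K x (hVt hx)).2 (hΨ x hx)
    have hcop : IsCoprime (r : ℤ) (P.p : ℤ) := by
      have : Nat.Coprime r P.p := (Nat.coprime_primes hr hp).2 hrp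
      exact_mod_cast Nat.isCoprime_iff_coprime.2 this
    obtain ⟨φ₀, hφ₀⟩ : ∃ φ : GQ, A.IsFrobeniusAt φ r := by
      obtain ⟨B, σ, hB, hσ⟩ := Fermat.Agent.Helper5.exists_isFrobeniusAt r hr
      obtain ⟨g, hg⟩ := Fermat.Agent.S56lib.TWSel.exists_smul_eq_of_liesOverPrime hr hB hA
      refine ⟨g * σ * g⁻¹, ?_⟩
      rw [hg]
      exact Fermat.Agent.S56lib.TWSel.isFrobeniusAt_conj hσ
    -- `w` preserves `V`
    have hwT : ∀ x ∈ tors N (P.p : ℤ), G.w x ∈ tors N (P.p : ℤ) := by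
      intro x hx
      have hx' : (P.p : ℤ) • x = 0 := (Submodule.mem_torsionBy_iff _ _).1 hx
      show G.w x ∈ Submodule.torsionBy ℤ (JZero N) (P.p : ℤ)
      rw [Submodule.mem_torsionBy_iff, ← map_zsmul, hx', _root_.map_zero]
    have hwV : ∀ x ∈ V, G.w x ∈ V := by
      intro x hx
      have h1 : φ₀ • x = -((r : ℤ) • G.w x) := G.frobK φ₀ hφ₀ x (hVK x hx)
      have h2 : (r : ℤ) • G.w x ∈ V := by
        have : (r : ℤ) • G.w x = -(φ₀ • x) := by rw [h1, neg_neg]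
        rw [this]
        exact V.neg_mem (hsmulV φ₀ x hx)
      obtain ⟨u, v, huv⟩ := hcop
      have h3 : (P.p : ℤ) • G.w x = 0 := (Submodule.mem_torsionBy_iff _ _).1 (hwT x (hVt hx))
      have : G.w x = u • ((r : ℤ) • G.w x) := by
        have h4 : G.w x = (u * (r : ℤ) + v * (P.p : ℤ)) • G.w x := by rw [huv, one_smul]
        rw [add_zsmul, mul_zsmul, mul_zsmul, h3, zsmul_zero, add_zero] at h4
        exact h4
      rw [this]
      exact V.zsmul_mem h2 u
    -- the involution of `E[p]`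
    let wV : V →+ V :=
      { toFun := fun x => ⟨G.w (x : JZero N), hwV x x.2⟩
        map_zero' := Subtype.ext (_root_.map_zero G.w)
        map_add' := fun x y => Subtype.ext (map_add G.w (x : JZero N) (y : JZero N)) }
    let u : FreyTors P →+ FreyTors P :=
      (e.symm.toAddMonoidHom.comp wV).comp e.toAddMonoidHom
    have hu_apply : ∀ y : FreyTors P, ((e (u y) : V) : JZero N) = G.w ((e y : V) : JZero N) := by
      intro y
      show ((e (e.symm (wV (e y))) : V) : JZero N) = _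
      rw [AddEquiv.apply_symm_apply]
      rfl
    have hinj : ∀ y y' : FreyTors P, ((e y : V) : JZero N) = ((e y' : V) : JZero N) → y = y' :=
      fun y y' h => e.injective (Subtype.ext h)
    have he_zsmul : ∀ (c : ℤ) (y : FreyTors P),
        ((e (c • y) : V) : JZero N) = c • ((e y : V) : JZero N) := by
      intro c y
      have h : e (c • y) = c • e y := map_zsmul e c y
      rw [h]
      rfl
    have hu_gal : ∀ (σ : GQ) (y : FreyTors P), u (σ • y) = σ • u y := by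
      intro σ y
      apply hinj
      rw [hu_apply, he, G.w_galois, he, hu_apply]
    have hu_inv : ∀ y, u (u y) = y := by
      intro y
      apply hinj
      rw [hu_apply, hu_apply, G.w_invol]
    -- every Frobenius element at `A` acts through a scalar
    have hscalar : ∀ φ : GQ, A.IsFrobeniusAt φ r → ∃ c : ℤ, (∀ y : FreyTors P, φ • y = c • y) ∧
        (P.p : ℤ) ∣ c ^ 2 - (r : ℤ) ^ 2 := by
      intro φ hφ
      rcases eq_or_eq_neg_of_involution P hirr u hu_gal hu_inv with hε | hε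
      · refine ⟨-(r : ℤ), fun y => ?_, by simp⟩
        apply hinj
        rw [he, G.frobK φ hφ _ (hVK _ (e y).2), ← hu_apply, hε, he_zsmul, neg_zsmul]
      · refine ⟨(r : ℤ), fun y => ?_, by simp⟩
        apply hinj
        rw [he, G.frobK φ hφ _ (hVK _ (e y).2), ← hu_apply, hε, map_neg, AddSubgroup.coe_neg,
          zsmul_neg, neg_neg, he_zsmul]
    rcases hAdisj with hr1 | ⟨σ, hσ, hns⟩
    · -- `r ≢ 1 (p)`: the determinant
      obtain ⟨c, hc, hc2⟩ := hscalar φ₀ hφ₀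
      have h3 := hdet P r A hr hrp hA φ₀ hφ₀ c hc
      have h4 : (P.p : ℤ) ∣ (r : ℤ) * ((r : ℤ) - 1) := by
        have : (r : ℤ) * ((r : ℤ) - 1) = (c ^ 2 - (r : ℤ)) - (c ^ 2 - (r : ℤ) ^ 2) := by ring
        rw [this]
        exact dvd_sub h3 hc2
      have hpp : Prime (P.p : ℤ) := Nat.prime_iff_prime_int.mp hp
      rcases hpp.dvd_or_dvd h4 with h | h
      · have : P.p ∣ r := by exact_mod_cast h
        exact hrp ((Nat.prime_dvd_prime_iff_eq hp hr).1 this).symm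
      · apply hr1
        have h6 : (1 : ℤ) ≡ (r : ℤ) [ZMOD (P.p : ℤ)] := (Int.modEq_iff_dvd).2 (by simpa using h)
        exact (Int.natCast_modEq_iff.1 (by simpa using h6.symm))
    · -- a non-scalar element of the decomposition group
      have hItriv : ∀ τ ∈ IA A, ∀ x : FreyTors P, τ • x = x := fun τ hτ x => hunr A hA τ hτ x
      obtain ⟨φ, j, hφ, hσφ⟩ := hD P r A hr hA hItriv σ hσ
      obtain ⟨c, hc, -⟩ := hscalar φ hφ
      refine hns (c ^ j) fun x => ?_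
      rw [hσφ x]
      clear hσφ
      induction j generalizing x with
      | zero => simp
      | succ j ih =>
        rw [pow_succ, mul_smul, hc, pow_succ, mul_smul]
        exact ih (c • x)

end Fermat.Agent.S43lib.B0

end
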