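/-
S43lib / B0 / Arith  (helper8)  — Project H, block B0: the arithmetic side statements of `B0/Iface.lean`,
discharged from helper4's `S43lib/B3/Arith/**`, `S43lib/BigImg/Ram2.lean` and helper5's `S44lib/Q1/Main.lean`.

* `decompFrobStmt : DecompFrobStmt`, `detFrobStmt : DetFrobStmt`, `badPrimeStmt : BadPrimeStmt`
  (helper4's `B3.decompFrob`, `B3.detFrob`, `B3.badPrime`);
* `ram2Stmt : Ram2Stmt` (helper4's `BigImg.frey_not_unramifiedAt_two`);
* `q1GenStmt : Q1GenStmt` (the argument of `S44lib.Q1.q1Stmt`, which never used the conductor hypotheses).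
-/
import Mathlib
import Fermat.Agent.S43lib.B0.Iface
import Fermat.Agent.S43lib.B3.Arith.Decomp
import Fermat.Agent.S43lib.B3.Arith.Det
import Fermat.Agent.S43lib.B3.Arith.BadPrime
import Fermat.Agent.S43lib.BigImg.Stmt
import Fermat.Agent.S44lib.Q1.Main

set_option autoImplicit false
set_option linter.unusedSectionVars false

noncomputable section

namespace Fermat.Agent.S43lib.B0

open ModularCurve Matrix Fermat.Agent.S29lib Fermat.Agent.S44lib Fermat.Agent.S19lib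
open WeierstrassCurve WeierstrassCurve.Affine WeierstrassCurve.Affine.Point
open Fermat.Agent.S44lib.Q1

local notation "Qb" => AlgebraicClosure ℚ
local notation "GQ" => (AlgebraicClosure ℚ ≃ₐ[ℚ] AlgebraicClosure ℚ)
local notation "Zbar" => integralClosure ℤ ℂ

/-- `DecompFrobStmt` (helper4). -/
theorem decompFrobStmt : DecompFrobStmt :=
  fun P r A hr hA hI => Fermat.Agent.S43lib.B3.decompFrob P r A hr hA hI

/-- `DetFrobStmt` (helper4). -/
theorem detFrobStmt : DetFrobStmt :=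
  fun P r A hr hrp hA φ hφ c hc => Fermat.Agent.S43lib.B3.detFrob P r A hr hrp hA φ hφ c hc

/-- `BadPrimeStmt` (helper4). -/
theorem badPrimeStmt : BadPrimeStmt :=
  fun P W r hr hW hd => Fermat.Agent.S43lib.B3.badPrime P W r hr hW hd

/-- `Ram2Stmt` (helper4). -/
theorem ram2Stmt : Ram2Stmt :=
  fun P => Fermat.Agent.S43lib.BigImg.frey_not_unramifiedAt_two P

/-- **Q1 at an arbitrary level** (the proof of `S44lib.Q1.q1Stmt`). -/
theorem q1GenStmt : Q1GenStmt := by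
  intro P N _ hirr f W 𝔪 hf hW h𝔪 hp𝔪 hcong
  classical
  have hpf : Fact P.p.Prime := ⟨P.pp⟩
  have hp2 : P.p ≠ 2 := by
    have := P.hp5
    omega
  obtain ⟨hΔ, d, hdσ, hirr'⟩ := exists_freyCoord P W hW hirr
  have hSN : ∀ ℓ, IsTestPrime W N P.p ℓ → ℓ.Prime ∧ ¬ ℓ ∣ N := fun ℓ h => ⟨h.1, h.2.2.1⟩
  obtain ⟨x₀, hx₀, hx₀t, hx₀e⟩ :=
    exists_eigen_torsion P.pp f hf 𝔪 h𝔪 hp𝔪 W.apOfModel (IsTestPrime W N P.p) hSN hcong
  have hx₀W : x₀ ∈ eigenSub N P.p W.apOfModel (IsTestPrime W N P.p) := ⟨hx₀t, hx₀e⟩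
  have h2 : (2 : ZMod P.p) ≠ 0 := by
    intro h20
    have h3 : ((2 : ℕ) : ZMod P.p) = 0 := by exact_mod_cast h20
    rw [ZMod.natCast_eq_zero_iff] at h3
    exact hp2 ((Nat.prime_dvd_prime_iff_eq P.pp Nat.prime_two).mp h3)
  obtain ⟨g, hginj, hgeq⟩ := exists_equivariant_embedding h2
    (span_range_rhoE W hΔ P.p hp2 hirr') (galEigen_rel W hΔ N P.p)
    ⟨⟨x₀, hx₀W⟩, fun h => hx₀ (congrArg Subtype.val h)⟩
  set ι : FreyTors P →+ JZero N :=
    ((eigenSub N P.p W.apOfModel (IsTestPrime W N P.p)).subtype.comp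
      (g : (Fin 2 → ZMod P.p) →+ eigenSub N P.p W.apOfModel (IsTestPrime W N P.p))).comp
      (d : FreyTors P →+ (Fin 2 → ZMod P.p)) with hι
  have hιx : ∀ x, ι x =
      ((g (d x) : eigenSub N P.p W.apOfModel (IsTestPrime W N P.p)) : JZero N) := fun _ => rfl
  have hιinj : Function.Injective ι := by
    intro x y hxy
    rw [hιx, hιx] at hxy
    exact d.injective (hginj (Subtype.ext hxy))
  refine ⟨ι.range, AddMonoidHom.ofInjective hιinj, ?_, ?_, ?_⟩
  · rintro _ ⟨x, rfl⟩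
    rw [hιx]
    exact (g (d x)).2.1
  · intro σ x
    show ι (σ • x) = σ • ι x
    rw [hιx, hιx, hdσ, hgeq, galEigen_coe]
  · rintro ℓ hℓ htest _ ⟨x, rfl⟩
    rw [hιx]
    exact (g (d x)).2.2 ℓ hℓ htest

end Fermat.Agent.S43lib.B0

end
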