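/-
S43lib / B0 / Main  (helper8)  — Project H, block B0: **`MazurBlock` IS PROVED.**

Mazur's principle at a squarefree conductor level `N` prime to `p`: a prime `r ∣ N` at which `ρ̄ = E[p]`
(irreducible, modular of level `N`) is unramified, with `r ≢ 1 (p)` or a non-scalar decomposition group,
can be removed from the level.

* `r ≥ 5` : `mazurLargeStmt` (`B0/Pkg/MazurLarge.lean`, helper6; the assembly `mazur_of_stmts` of
  `B0/Iface.lean` with the tame package of `B0/Toric/**`, `B0/Pkg/**`, `B0/Lift/**`);
* `r = 3` : `Three.mazurThreeStmt` (`B0/Three/Main.lean`: auxiliary level `4N`);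
* `r = 2` : vacuous, the Frey representation is ramified at `2` (helper4's `BigImg`).
-/
import Fermat.Agent.S43lib.B0.Three.Main

set_option autoImplicit false

noncomputable section

namespace Fermat.Agent.S43lib.B0

/-- **B0: Mazur's principle.** -/
theorem mazurBlock : MazurBlock :=
  mazurBlock_of_large_small mazurLargeStmt Three.mazurSmallStmt

end Fermat.Agent.S43lib.B0

end
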